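import Mathlib
import Fermat.Agent.LT.T7.H340.UpFactSpec
import Fermat.Agent.LT.T7.H385.CutOnOut

/-!
# Row LT, tower T7, node C2.7.13.1 `UpFactC340`, leaf UF.A3 `CutOnOutUpC340` (registry row 2747)

OFF-MAIN (helper269).  `cutOnOutUpC269 (K K') : H340.CutOnOutUpC340 K K'`, UNCONDITIONAL, VERBATIM
Prop of `LT/T7/H340/UpFactSpec.lean` (helper340@4a08d18e4, sha256 04981afb).

Proof.  (1) `IsTorLinked305`: the image of `μT'` in `GL₂(𝔸_{K'})` is the image of `μT` under
`t ↦ GL₂(ι)(t)`; the function `y ↦ upCut340 (y x')` is Borel (`Out_{S'}` is open, the local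
cut-off functions and the components are continuous), so the integral is
`∫_{T_𝔸(γ)} upCut340 (GL₂(ι)(t) x') dμT(t)`.  (2) `GL₂(ι)(t) x' ∈ Out_{S'} ⟺ t ∈ Out_S`
(`IsAdeleBase305.fin`: `v(i x) = v(x)^e`, `e > 0`; lying over).  (3) For `t ∈ Out_S` the integrand
is `c_T⁻¹ ∏_{v ∈ S} a_v(t_v) ∏_{w ∣ ∞} b_w(t_w)` (the fields `iot` of the local data upstairs;
`d₀ ∘ d₀ = 1`).  (4) The abstract Fubini computation of helper385 (`integral_cut_abs385`) with
`IsTorConst305`; the local integrals are `1`: `link` + `IsLocCut305` upstairs at the places with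
ONE place over them, `IsLocCut305` downstairs at the split places, `IsCut305` at the infinite
places.
-/

set_option autoImplicit false
set_option linter.style.haveILetI false
set_option linter.unusedSectionVars false

open AutomorphicForm IsDedekindDomain NumberField MeasureTheory

noncomputable section

namespace Fermat.Agent.LT.T7.H269

open Fermat.Agent.LT Fermat.Agent.LT.H556 Fermat.Agent.LT.H556.A0 Fermat.Agent.LT.T7
open Fermat.Agent.LT.T7.H305 Fermat.Agent.LT.T7.H558 Fermat.Agent.LT.T7.H340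

attribute [local instance] Fermat.Agent.LT.T5.instMeasurableSpaceG

/-! ## 1. Continuity -/

/-- A ring homomorphism of completions of number fields at finite places with
`v (i x) = v x ^ e`, `e > 0`, is continuous. -/
theorem continuous_of_val_cu269 {K₁ K₂ : Type} [Field K₁] [NumberField K₁] [Field K₂]
    [NumberField K₂] {v : HeightOneSpectrum (𝓞 K₁)} {w : HeightOneSpectrum (𝓞 K₂)}
    (i : v.adicCompletion K₁ →+* w.adicCompletion K₂) (e : ℕ) (he : 0 < e)
    (hval : ∀ x : v.adicCompletion K₁, Valued.v (i x) = Valued.v x ^ e) : Continuous i := by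
  refine continuous_of_continuousAt_zero i ?_
  rw [ContinuousAt, map_zero, (Valued.hasBasis_nhds_zero _ _).tendsto_iff
    (Valued.hasBasis_nhds_zero _ _)]
  intro γ _
  obtain ⟨z, hz⟩ := HeightOneSpectrum.valuedAdicCompletion_surjective K₁ v
    (min 1 (MonoidWithZeroHom.ValueGroup₀.embedding γ.val))
  have hγ0 : MonoidWithZeroHom.ValueGroup₀.embedding γ.val ≠ 0 := by
    simp
  have hz0 : Valued.v z ≠ 0 := by
    rw [hz]
    exact (lt_min zero_lt_one (zero_lt_iff.2 hγ0)).ne'
  refine ⟨Units.mk0 (Valued.v.restrict z) ?_, trivial, ?_⟩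
  · rw [Ne, ← MonoidWithZeroHom.ValueGroup₀.embedding_inj]
    simpa using hz0
  intro x hx
  simp only [Set.mem_ofPred_eq, Units.val_mk0] at hx ⊢
  rw [Valuation.restrict_lt_iff_lt_embedding] at hx ⊢
  rw [Valuation.embedding_restrict, hz] at hx
  rw [hval x]
  have hx1 : Valued.v x < 1 := lt_of_lt_of_le hx (min_le_left _ _)
  have hx2 : Valued.v x < MonoidWithZeroHom.ValueGroup₀.embedding γ.val :=
    lt_of_lt_of_le hx (min_le_right _ _)
  calc Valued.v x ^ e ≤ Valued.v x ^ 1 := pow_le_pow_of_le_one zero_le hx1.le he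
    _ = Valued.v x := pow_one _
    _ < _ := hx2

/-- `GL₂` of a continuous ring homomorphism is continuous. -/
theorem continuous_glMap_cu269 {R R' : Type} [CommRing R] [CommRing R'] [TopologicalSpace R]
    [TopologicalSpace R'] (f : R →+* R') (hf : Continuous f) :
    Continuous (Matrix.GeneralLinearGroup.map (n := Fin 2) f) := by
  have h : Continuous (f.mapMatrix : Matrix (Fin 2) (Fin 2) R → Matrix (Fin 2) (Fin 2) R') :=
    continuous_id.matrix_map hf
  exact Continuous.units_map _ h

/-- Composition of `GL₂` of ring homomorphisms, pointwise form. -/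
theorem glMap_glMap_cu269 {R₁ R₂ R₃ : Type} [CommRing R₁] [CommRing R₂] [CommRing R₃]
    (f : R₂ →+* R₃) (g : R₁ →+* R₂) (k : R₁ →+* R₃) (h : ∀ x, f (g x) = k x)
    (t : GL (Fin 2) R₁) :
    Matrix.GeneralLinearGroup.map f (Matrix.GeneralLinearGroup.map g t)
      = Matrix.GeneralLinearGroup.map k t := by
  apply Matrix.GeneralLinearGroup.ext
  intro i j
  simp only [Matrix.GeneralLinearGroup.map_apply]
  exact h _

/-! ## 2. Change of variables along linked measures -/

/-- Two measures with the same image have the same integrals. -/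
theorem integral_link_cu269 {X X' Z : Type*} [MeasurableSpace X] [MeasurableSpace X']
    [MeasurableSpace Z] (μ : Measure X) (μ' : Measure X') (p : X → Z) (p' : X' → Z)
    (hp : Measurable p) (hp' : Measurable p')
    (hlink : ∀ A : Set Z, MeasurableSet A → μ' (p' ⁻¹' A) = μ (p ⁻¹' A))
    (g : Z → ℝ) (hg : Measurable g) :
    ∫ x', g (p' x') ∂μ' = ∫ x, g (p x) ∂μ := by
  have hm : Measure.map p' μ' = Measure.map p μ := by
    ext A hA
    rw [Measure.map_apply hp' hA, Measure.map_apply hp hA, hlink A hA]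
  rw [← integral_map hp'.aemeasurable hg.aestronglyMeasurable,
    ← integral_map hp.aemeasurable hg.aestronglyMeasurable, hm]

/-! ## 3. Places, integrality along `ι` -/

section Places

variable {K K' : Type} [Field K] [NumberField K] [Field K'] [NumberField K'] [Algebra K K']

/-- Every finite place of `K'` lies over a place of `K`. -/
theorem exists_placeUnder_cu269 (w : HeightOneSpectrum (𝓞 K')) :
    ∃ v : HeightOneSpectrum (𝓞 K), PlaceOver K K' v w := by
  refine ⟨⟨w.asIdeal.under (𝓞 K), Ideal.IsPrime.under (𝓞 K) w.asIdeal, ?_⟩, ?_⟩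
  · obtain ⟨x, hx, hx0⟩ := Submodule.exists_mem_ne_zero_of_ne_bot w.ne_bot
    exact Ideal.comap_ne_bot_of_integral_mem hx0 hx (Algebra.IsIntegral.isIntegral x)
  · rw [H557.placeOver_iff_557]

/-- Integrality at `w` of `GL₂(ι)(t)` is integrality at `v` of `t`. -/
theorem isIntegralAt_map_iff_cu269 {ι : Adl K →+* Adl K'} {v : HeightOneSpectrum (𝓞 K)}
    {w : HeightOneSpectrum (𝓞 K')} {e : ℕ} {i : v.adicCompletion K →+* w.adicCompletion K'}
    (he : 0 < e) (hval : ∀ x : v.adicCompletion K, Valued.v (i x) = Valued.v x ^ e)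
    (hio : ∀ x : Adl K, T5.finHom w (ι x) = i (T5.finHom v x)) (t : G K) :
    IsIntegralAt w (Matrix.GeneralLinearGroup.map ι t) ↔ IsIntegralAt v t := by
  unfold IsIntegralAt
  refine forall_congr' fun a => forall_congr' fun b => ?_
  have h1 : finComp w (Matrix.GeneralLinearGroup.map ι t) a b = i (finComp v t a b) :=
    hio _
  rw [h1, HeightOneSpectrum.mem_adicCompletionIntegers,
    HeightOneSpectrum.mem_adicCompletionIntegers, hval]
  exact pow_le_one_iff he.ne'

/-- `GL₂(ι)(t) ∈ Out_{S'} ⟺ t ∈ Out_S`. -/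
theorem outT_map_iff_cu269 {s : T5.AdelicAut K'} {l : ℕ} {ι : Adl K →+* Adl K'}
    (hι : IsAdeleBase305 s l ι) {S : Finset (HeightOneSpectrum (𝓞 K))}
    {S' : Finset (HeightOneSpectrum (𝓞 K'))} (hOver : IsOver305 S S') (t : G K) :
    OutT305 S' (Matrix.GeneralLinearGroup.map ι t) ↔ OutT305 S t := by
  constructor
  · intro h v hv
    obtain ⟨w, hvw⟩ := H557.exists_placeOver_557 (K' := K') v
    have hw : w ∉ S' := by
      intro hw
      obtain ⟨v₁, hv₁, hv₁w⟩ := (hOver w).1 hw
      have hvv : v = v₁ := H557.placeOver_unique_557 hvw hv₁w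
      exact hv (hvv ▸ hv₁)
    obtain ⟨e, i, he, -, hval, hio⟩ := hι.fin v w hvw
    have h' := h w hw
    rw [← map_inv] at h'
    exact ⟨(isIntegralAt_map_iff_cu269 he hval hio t).1 h'.1,
      (isIntegralAt_map_iff_cu269 he hval hio t⁻¹).1 h'.2⟩
  · intro h w hw
    obtain ⟨v, hvw⟩ := exists_placeUnder_cu269 (K := K) w
    have hv : v ∉ S := fun hv => hw ((hOver w).2 ⟨v, hv, hvw⟩)
    obtain ⟨e, i, he, -, hval, hio⟩ := hι.fin v w hvw
    have h' := h v hv
    rw [← map_inv]
    exact ⟨(isIntegralAt_map_iff_cu269 he hval hio t).2 h'.1,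
      (isIntegralAt_map_iff_cu269 he hval hio t⁻¹).2 h'.2⟩

end Places

/-! ## 4. Algebra of the components, products over `S = S_in ⊔ S_sp` -/

/-- `GL₂(f) ∘ GL₂(g) = GL₂(f') ∘ GL₂(g')` if `f ∘ g = f' ∘ g'`. -/
theorem glMap_comm_cu269 {R₁ R₂ R₃ R₄ : Type} [CommRing R₁] [CommRing R₂] [CommRing R₃]
    [CommRing R₄] (f : R₂ →+* R₄) (g : R₁ →+* R₂) (f' : R₃ →+* R₄) (g' : R₁ →+* R₃)
    (h : ∀ x, f (g x) = f' (g' x)) (t : GL (Fin 2) R₁) :
    Matrix.GeneralLinearGroup.map f (Matrix.GeneralLinearGroup.map g t)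
      = Matrix.GeneralLinearGroup.map f' (Matrix.GeneralLinearGroup.map g' t) := by
  apply Matrix.GeneralLinearGroup.ext
  intro i j
  simp only [Matrix.GeneralLinearGroup.map_apply]
  exact h _

/-- `GL₂(f) ∘ GL₂(g) = 1` if `f ∘ g = 1`. -/
theorem glMap_cancel_cu269 {R₁ R₂ : Type} [CommRing R₁] [CommRing R₂] (f : R₂ →+* R₁)
    (g : R₁ →+* R₂) (h : ∀ x, f (g x) = x) (t : GL (Fin 2) R₁) :
    Matrix.GeneralLinearGroup.map f (Matrix.GeneralLinearGroup.map g t) = t := by
  apply Matrix.GeneralLinearGroup.ext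
  intro i j
  simp only [Matrix.GeneralLinearGroup.map_apply]
  exact h _

/-- The product over `S = A ⊔ B` of a function defined by cases. -/
theorem prod_dite_split_cu269 {α : Type*} (S A B : Finset α)
    (hu : ∀ x, x ∈ S ↔ x ∈ A ∨ x ∈ B) (hd : ∀ x, x ∈ A → x ∉ B)
    [∀ x, Decidable (x ∈ A)] [∀ x, Decidable (x ∈ B)] (P : A → ℝ) (Q : B → ℝ) :
    ∏ i : S, (if h : i.1 ∈ A then P ⟨i.1, h⟩ else if h' : i.1 ∈ B then Q ⟨i.1, h'⟩ else 1)
      = (∏ v : A, P v) * ∏ v : B, Q v := by
  classical
  set F : α → ℝ :=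
    fun x => if h : x ∈ A then P ⟨x, h⟩ else if h' : x ∈ B then Q ⟨x, h'⟩ else 1 with hF
  have hS : S = A ∪ B := by
    ext x
    rw [Finset.mem_union]
    exact hu x
  have e1 : ∏ i : S, F i.1 = ∏ x ∈ S, F x := Finset.prod_coe_sort S F
  have e2 : ∏ v : A, P v = ∏ x ∈ A, F x := by
    rw [← Finset.prod_coe_sort A F]
    refine Finset.prod_congr rfl fun v _ => ?_
    simp only [hF, dif_pos v.2]
  have e3 : ∏ v : B, Q v = ∏ x ∈ B, F x := by
    rw [← Finset.prod_coe_sort B F]
    refine Finset.prod_congr rfl fun v _ => ?_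
    simp only [hF, dif_neg (fun h => hd v.1 h v.2), dif_pos v.2]
  show ∏ i : S, F i.1 = _
  rw [e1, e2, e3, hS, Finset.prod_union (Finset.disjoint_left.2 hd)]

/-! ## 5. The leaf -/

/-- **Leaf UF.A3 `CutOnOutUpC340`**, unconditional. -/
theorem cutOnOutUpC269 (K K' : Type) [Field K] [NumberField K] [Field K'] [NumberField K']
    [Algebra K K'] : CutOnOutUpC340 K K' := by
  intro hHS hCK hCK' D hD hc hl2 hTC ι hι n m S S' hOver δ γ hell hN hgood μT μT' hμT hμT'
    hlink L cT hL hcT hconst U hU x' hx'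
  classical
  letI iT : MeasurableSpace (tA305 (T5.AdelicAut.id K) γ) := borel _
  haveI bT : BorelSpace (tA305 (T5.AdelicAut.id K) γ) := ⟨rfl⟩
  letI iT' : MeasurableSpace (tA305 D.s δ) := borel _
  haveI bT' : BorelSpace (tA305 D.s δ) := ⟨rfl⟩
  haveI bG' : BorelSpace (G K') := ⟨rfl⟩
  letI iv : ∀ v : HeightOneSpectrum (𝓞 K), MeasurableSpace (GL (Fin 2) (v.adicCompletion K)) :=
    fun _ => borel _
  haveI bv : ∀ v : HeightOneSpectrum (𝓞 K), BorelSpace (GL (Fin 2) (v.adicCompletion K)) :=
    fun _ => ⟨rfl⟩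
  letI iw : ∀ w : HeightOneSpectrum (𝓞 K'),
      MeasurableSpace (GL (Fin 2) (w.adicCompletion K')) := fun _ => borel _
  haveI bw : ∀ w : HeightOneSpectrum (𝓞 K'), BorelSpace (GL (Fin 2) (w.adicCompletion K')) :=
    fun _ => ⟨rfl⟩
  letI ic : MeasurableSpace (GL (Fin 2) ℂ) := borel _
  haveI bc : BorelSpace (GL (Fin 2) ℂ) := ⟨rfl⟩
  letI itv : ∀ v : HeightOneSpectrum (𝓞 K), MeasurableSpace
      (T6.twCentSub (T6.glAut (RingEquiv.refl (v.adicCompletion K))) (locG305 v γ)) :=
    fun _ => borel _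
  haveI btv : ∀ v : HeightOneSpectrum (𝓞 K), BorelSpace
      (T6.twCentSub (T6.glAut (RingEquiv.refl (v.adicCompletion K))) (locG305 v γ)) :=
    fun _ => ⟨rfl⟩
  letI itc : ∀ w : InfinitePlace K, MeasurableSpace (cent305 (archG305 w γ)) := fun _ => borel _
  haveI btc : ∀ w : InfinitePlace K, BorelSpace (cent305 (archG305 w γ)) := fun _ => ⟨rfl⟩
  -- continuity of the maps between the local groups
  have hιc : Continuous (Matrix.GeneralLinearGroup.map (n := Fin 2) ι) :=
    continuous_glMap_cu269 ι hι.cont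
  have hci : ∀ v : U.Sin,
      Continuous (Matrix.GeneralLinearGroup.map (n := Fin 2) (U.dI v).i) := fun v =>
    continuous_glMap_cu269 _ (continuous_of_val_cu269 _ (U.dI v).e (hU.inert v).ext.e_pos
      (hU.inert v).ext.val_i)
  have hcs : ∀ v : U.Ssp, Continuous (Matrix.GeneralLinearGroup.map (n := Fin 2)
      ((((U.dS v).i 0).symm : ((U.dS v).w 0).adicCompletion K' ≃+* _) :
        ((U.dS v).w 0).adicCompletion K' →+* (v.1).adicCompletion K)) := fun v => by
    refine continuous_glMap_cu269 _ (continuous_of_val_cu269 _ 1 one_pos fun y => ?_)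
    have h := (hU.split v).val_i 0 (((U.dS v).i 0).symm y)
    rw [RingEquiv.apply_symm_apply] at h
    rw [pow_one]
    exact h.symm
  have hd2 : ∀ (v : InfinitePlace K) (z : ℂ), (U.dA v).d 0 ((U.dA v).d 0 z) = z := by
    intro v z
    rcases (hU.arch v).typ 0 with h | h
    · rw [h]
      rfl
    · rw [h]
      exact Complex.conj_conj z
  have hca : ∀ v : InfinitePlace K,
      Continuous (Matrix.GeneralLinearGroup.map (n := Fin 2) ((U.dA v).d 0)) := fun v => by
    apply continuous_glMap_cu269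
    rcases (hU.arch v).typ 0 with h | h
    · rw [h]
      exact continuous_id
    · rw [h]
      exact Complex.continuous_conj
  -- the components of `GL₂(ι)(t) x'`
  have eI : ∀ (v : U.Sin) (t : G K),
      finGL305 (U.dI v).w (Matrix.GeneralLinearGroup.map ι t * x')
        = Matrix.GeneralLinearGroup.map (U.dI v).i (finGL305 v.1 t)
          * finGL305 (U.dI v).w x' := by
    intro v t
    rw [map_mul]
    congr 1
    exact glMap_comm_cu269 _ _ _ _ (hU.inert v).iot t
  have eS : ∀ (v : U.Ssp) (t : G K),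
      Matrix.GeneralLinearGroup.map
          ((((U.dS v).i 0).symm : ((U.dS v).w 0).adicCompletion K' ≃+* _) :
            ((U.dS v).w 0).adicCompletion K' →+* (v.1).adicCompletion K)
          (finGL305 ((U.dS v).w 0) (Matrix.GeneralLinearGroup.map ι t * x'))
        = finGL305 v.1 t * Matrix.GeneralLinearGroup.map
          ((((U.dS v).i 0).symm : ((U.dS v).w 0).adicCompletion K' ≃+* _) :
            ((U.dS v).w 0).adicCompletion K' →+* (v.1).adicCompletion K)
          (finGL305 ((U.dS v).w 0) x') := by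
    intro v t
    rw [map_mul, map_mul]
    congr 1
    have h1 : finGL305 ((U.dS v).w 0) (Matrix.GeneralLinearGroup.map ι t)
        = Matrix.GeneralLinearGroup.map
            (((U.dS v).i 0 : (v.1).adicCompletion K ≃+* _) :
              (v.1).adicCompletion K →+* ((U.dS v).w 0).adicCompletion K')
            (finGL305 v.1 t) :=
      glMap_comm_cu269 _ _ _ _ ((hU.split v).iot 0) t
    rw [h1]
    exact glMap_cancel_cu269 _ _ (fun x => RingEquiv.symm_apply_apply _ x) _
  have eA : ∀ (v : InfinitePlace K) (t : G K),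
      Matrix.GeneralLinearGroup.map ((U.dA v).d 0)
          (infGL305 ((U.dA v).w 0) (Matrix.GeneralLinearGroup.map ι t * x'))
        = infGL305 v t * Matrix.GeneralLinearGroup.map ((U.dA v).d 0)
          (infGL305 ((U.dA v).w 0) x') := by
    intro v t
    rw [map_mul, map_mul]
    congr 1
    have h1 : infGL305 ((U.dA v).w 0) (Matrix.GeneralLinearGroup.map ι t)
        = Matrix.GeneralLinearGroup.map ((U.dA v).d 0) (infGL305 v t) :=
      glMap_comm_cu269 _ _ _ _ ((hU.arch v).iot 0) t
    rw [h1]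
    exact glMap_cancel_cu269 _ _ (hd2 v) _
  -- Step 1: the function `y ↦ upCut340 (y x')` is Borel
  have hgm : Measurable (fun y : G K' => upCut340 S' cT L U (y * x')) := by
    have hOm : MeasurableSet {y : G K' | OutT305 S' (y * x')} :=
      ((H942.isOpen_integralOutside942 S').preimage (continuous_mul_right x')).measurableSet
    unfold upCut340
    refine Measurable.ite hOm ?_ measurable_const
    refine ((measurable_const.mul ?_).mul ?_).mul ?_
    · exact Finset.measurable_prod _ fun v _ =>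
        ((hU.inert v).cut.1.comp ((hCK'.1 _).comp (continuous_mul_right x'))).measurable
    · exact Finset.measurable_prod _ fun v _ =>
        ((hL.cut v.1).1.comp ((hcs v).comp
          ((hCK'.1 _).comp (continuous_mul_right x')))).measurable
    · exact Finset.measurable_prod _ fun v _ =>
        ((hL.cutc v).1.comp ((hca v).comp
          ((hCK'.2 _).comp (continuous_mul_right x')))).measurable
  -- Step 2: transport to `T_𝔸(γ)`
  have hstep1 : (∫ t : tA305 D.s δ, upCut340 S' cT L U ((t : G K') * x') ∂μT')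
      = ∫ t : tA305 (T5.AdelicAut.id K) γ,
          upCut340 S' cT L U (Matrix.GeneralLinearGroup.map ι (t : G K) * x') ∂μT :=
    integral_link_cu269 μT μT' (fun t => Matrix.GeneralLinearGroup.map ι (t : G K))
      (fun t => (t : G K')) (hιc.comp continuous_subtype_val).measurable
      continuous_subtype_val.measurable (fun A hA => hlink A hA)
      (fun y : G K' => upCut340 S' cT L U (y * x')) hgm
  rw [hstep1]
  -- Step 3: the abstract computation downstairs
  have hmap := hconst S hgood
  have hAm : MeasurableSet {t : tA305 (T5.AdelicAut.id K) γ | OutT305 S (t : G K)} :=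
    ((H942.isOpen_integralOutside942 S).preimage continuous_subtype_val).measurableSet
  haveI sν : ∀ i : S, SigmaFinite (Measure.map Subtype.val (L.μt i.1)) :=
    fun i => hHS.2.2.1 i.1 (locG305 i.1 γ) (L.μt i.1) (hL.tor i.1).1
  haveI sρ : ∀ w : InfinitePlace K, SigmaFinite (Measure.map Subtype.val (L.μtc w)) :=
    fun w => hHS.2.2.2 (archG305 w γ) (L.μtc w) (hL.torc w)
  have hφ : Measurable (fun t : tA305 (T5.AdelicAut.id K) γ => compS305 S (t : G K)) := by
    refine Measurable.prodMk ?_ ?_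
    · exact measurable_pi_lambda _ fun i =>
        ((hCK.1 i.1).comp continuous_subtype_val).measurable
    · exact measurable_pi_lambda _ fun w =>
        ((hCK.2 w).comp continuous_subtype_val).measurable
  -- the local functions
  obtain ⟨a, ha_def⟩ : ∃ a : ∀ i : S, GL (Fin 2) (i.1.adicCompletion K) → ℝ, ∀ i y, a i y =
      if h : i.1 ∈ U.Sin then
        (U.dI ⟨i.1, h⟩).β' (Matrix.GeneralLinearGroup.map (U.dI ⟨i.1, h⟩).i y
          * finGL305 (U.dI ⟨i.1, h⟩).w x')
      else if h' : i.1 ∈ U.Ssp then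
        L.βv i.1 (y * Matrix.GeneralLinearGroup.map
          ((((U.dS ⟨i.1, h'⟩).i 0).symm : ((U.dS ⟨i.1, h'⟩).w 0).adicCompletion K' ≃+* _) :
            ((U.dS ⟨i.1, h'⟩).w 0).adicCompletion K' →+* (i.1).adicCompletion K)
          (finGL305 ((U.dS ⟨i.1, h'⟩).w 0) x'))
      else 1 := ⟨_, fun _ _ => rfl⟩
  obtain ⟨b, hb_def⟩ : ∃ b : InfinitePlace K → GL (Fin 2) ℂ → ℝ, ∀ w y, b w y =
      L.βc w (y * Matrix.GeneralLinearGroup.map ((U.dA w).d 0)
        (infGL305 ((U.dA w).w 0) x')) := ⟨_, fun _ _ => rfl⟩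
  have hb : ∀ w : InfinitePlace K, Measurable (b w) := by
    intro w
    have e : b w = fun y => L.βc w (y * Matrix.GeneralLinearGroup.map ((U.dA w).d 0)
        (infGL305 ((U.dA w).w 0) x')) := funext fun y => hb_def w y
    rw [e]
    exact ((hL.cutc w).1.comp (continuous_mul_const _)).measurable
  have hb1 : ∀ w : InfinitePlace K,
      ∫ y, b w y ∂(Measure.map Subtype.val (L.μtc w)) = 1 := by
    intro w
    rw [integral_map continuous_subtype_val.measurable.aemeasurable
      (hb w).aestronglyMeasurable]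
    simp only [hb_def]
    exact (hL.cutc w).2.2 _
  have ha_both : ∀ i : S, Measurable (a i) ∧
      ∫ y, a i y ∂(Measure.map Subtype.val (L.μt i.1)) = 1 := by
    intro i
    by_cases h : i.1 ∈ U.Sin
    · have e : a i = fun y => (U.dI ⟨i.1, h⟩).β'
          (Matrix.GeneralLinearGroup.map (U.dI ⟨i.1, h⟩).i y
            * finGL305 (U.dI ⟨i.1, h⟩).w x') := funext fun y => by
        rw [ha_def, dif_pos h]
      have hm : Measurable (a i) := by
        rw [e]
        exact ((hU.inert ⟨i.1, h⟩).cut.1.comp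
          ((hci ⟨i.1, h⟩).mul continuous_const)).measurable
      refine ⟨hm, ?_⟩
      rw [integral_map continuous_subtype_val.measurable.aemeasurable hm.aestronglyMeasurable]
      letI iT'w : MeasurableSpace (T6.twCentSub (T6.glAut (U.dI ⟨i.1, h⟩).sw)
          (locG305 (U.dI ⟨i.1, h⟩).w δ)) := borel _
      haveI bT'w : BorelSpace (T6.twCentSub (T6.glAut (U.dI ⟨i.1, h⟩).sw)
          (locG305 (U.dI ⟨i.1, h⟩).w δ)) := ⟨rfl⟩
      have hl := integral_link_cu269 (L.μt i.1) (U.dI ⟨i.1, h⟩).μt'
        (fun t => Matrix.GeneralLinearGroup.map (U.dI ⟨i.1, h⟩).i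
          (t : GL (Fin 2) (i.1.adicCompletion K)))
        (fun t => (t : GL (Fin 2) ((U.dI ⟨i.1, h⟩).w.adicCompletion K')))
        ((hci ⟨i.1, h⟩).comp continuous_subtype_val).measurable
        continuous_subtype_val.measurable
        (fun A hA => (hU.inert ⟨i.1, h⟩).link A hA)
        (fun y => (U.dI ⟨i.1, h⟩).β' (y * finGL305 (U.dI ⟨i.1, h⟩).w x'))
        ((hU.inert ⟨i.1, h⟩).cut.1.comp (continuous_mul_const _)).measurable
      simp only [e]
      rw [← hl]
      exact (hU.inert ⟨i.1, h⟩).cut.2.2 _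
    · by_cases h' : i.1 ∈ U.Ssp
      · have e : a i = fun y => L.βv i.1 (y * Matrix.GeneralLinearGroup.map
            ((((U.dS ⟨i.1, h'⟩).i 0).symm :
                ((U.dS ⟨i.1, h'⟩).w 0).adicCompletion K' ≃+* _) :
              ((U.dS ⟨i.1, h'⟩).w 0).adicCompletion K' →+* (i.1).adicCompletion K)
            (finGL305 ((U.dS ⟨i.1, h'⟩).w 0) x')) := funext fun y => by
          rw [ha_def, dif_neg h, dif_pos h']
        have hm : Measurable (a i) := by
          rw [e]
          exact ((hL.cut i.1).1.comp (continuous_mul_const _)).measurable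
        refine ⟨hm, ?_⟩
        rw [integral_map continuous_subtype_val.measurable.aemeasurable
          hm.aestronglyMeasurable]
        simp only [e]
        exact (hL.cut i.1).2.2 _
      · exact absurd ((hU.union i.1).1 i.2) (by tauto)
  have key := H385.integral_cut_abs385 (Y := fun i : S => GL (Fin 2) (i.1.adicCompletion K))
    (Z := fun _ : InfinitePlace K => GL (Fin 2) ℂ) μT _ hAm _ hφ
    (fun i : S => Measure.map Subtype.val (L.μt i.1))
    (fun w : InfinitePlace K => Measure.map Subtype.val (L.μtc w)) cT hcT hmap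
    a b (fun i => (ha_both i).1) hb (fun i => (ha_both i).2) hb1
  rw [← key]
  congr 1
  funext t
  unfold upCut340
  by_cases ht : OutT305 S (t : G K)
  · have ht' : OutT305 S' (Matrix.GeneralLinearGroup.map ι (t : G K) * x') :=
      (H385.outT_mul_iff385 hx').2 ((outT_map_iff_cu269 hι hOver _).2 ht)
    rw [if_pos ht', if_pos (show t ∈ {t : tA305 (T5.AdelicAut.id K) γ |
      OutT305 S (t : G K)} from ht)]
    have hprod : (∏ i : S, a i ((compS305 S (t : G K)).1 i))
        = (∏ v : U.Sin, (U.dI v).β' (finGL305 (U.dI v).w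
              (Matrix.GeneralLinearGroup.map ι (t : G K) * x')))
          * ∏ v : U.Ssp, L.βv v.1 (Matrix.GeneralLinearGroup.map
              ((((U.dS v).i 0).symm : ((U.dS v).w 0).adicCompletion K' ≃+* _) :
                ((U.dS v).w 0).adicCompletion K' →+* (v.1).adicCompletion K)
              (finGL305 ((U.dS v).w 0) (Matrix.GeneralLinearGroup.map ι (t : G K) * x'))) := by
      simp only [eI, eS]
      have := prod_dite_split_cu269 S U.Sin U.Ssp hU.union hU.disj
        (fun v : U.Sin => (U.dI v).β' (Matrix.GeneralLinearGroup.map (U.dI v).i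
          (finGL305 v.1 (t : G K)) * finGL305 (U.dI v).w x'))
        (fun v : U.Ssp => L.βv v.1 (finGL305 v.1 (t : G K) * Matrix.GeneralLinearGroup.map
          ((((U.dS v).i 0).symm : ((U.dS v).w 0).adicCompletion K' ≃+* _) :
            ((U.dS v).w 0).adicCompletion K' →+* (v.1).adicCompletion K)
          (finGL305 ((U.dS v).w 0) x')))
      rw [← this]
      refine Finset.prod_congr rfl fun i _ => ?_
      rw [ha_def]
      rfl
    have hprodb : (∏ w : InfinitePlace K, b w ((compS305 S (t : G K)).2 w))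
        = ∏ v : InfinitePlace K, L.βc v (Matrix.GeneralLinearGroup.map ((U.dA v).d 0)
            (infGL305 ((U.dA v).w 0) (Matrix.GeneralLinearGroup.map ι (t : G K) * x'))) := by
      refine Finset.prod_congr rfl fun w _ => ?_
      rw [hb_def, eA]
      rfl
    rw [hprod, hprodb]
    ring
  · have ht' : ¬ OutT305 S' (Matrix.GeneralLinearGroup.map ι (t : G K) * x') :=
      fun h => ht ((outT_map_iff_cu269 hι hOver _).1 ((H385.outT_mul_iff385 hx').1 h))
    rw [if_neg ht', if_neg (show ¬ t ∈ {t : tA305 (T5.AdelicAut.id K) γ |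
      OutT305 S (t : G K)} from ht)]

end Fermat.Agent.LT.T7.H269

end
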