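import Mathlib
import Fermat.Agent.LT.T7.H534.SpecDownSpec

/-!
# Row LT, tower T7, leaf T7.L2.3.6 `SD534.ResDegC` (helper269)

OFF-MAIN.  ADDITIVE (new names only, all tagged `269`).  No hole, nothing assumed.
Spec: `LT/T7/H534/SpecDownSpec.lean` (helper534@756e78a11), byte-identical.

    resDegC269 : SD534.ResDegC K K'

Every finite place `w` of `K'` lies over the finite place `v = w ∩ 𝓞 K` of `K`, and
`N w = (N v) ^ f` with `f = [𝓞 K' / w : 𝓞 K / v]` (the finite ring `𝓞 K' / w` is a finite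
dimensional vector space over the finite field `𝓞 K / v`).  The hypothesis
`FiniteDimensional K K'` of the leaf is not needed.
-/

set_option autoImplicit false
set_option linter.unusedSectionVars false
set_option linter.unusedVariables false
set_option linter.style.haveILetI false

open IsDedekindDomain NumberField

noncomputable section

namespace Fermat.Agent.LT.T7.H269

open Fermat.Agent.LT.T7

variable (K K' : Type) [Field K] [NumberField K] [Field K'] [NumberField K'] [Algebra K K']

/-- The place of `K` below the finite place `w` of `K'`. -/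
def placeBelow269 (w : HeightOneSpectrum (𝓞 K')) : HeightOneSpectrum (𝓞 K) where
  asIdeal := w.asIdeal.under (𝓞 K)
  isPrime := Ideal.IsPrime.under (𝓞 K) w.asIdeal
  ne_bot := by
    obtain ⟨x, hx, hx0⟩ := Submodule.exists_mem_ne_zero_of_ne_bot w.ne_bot
    exact Ideal.comap_ne_bot_of_integral_mem hx0 hx (Algebra.IsIntegral.isIntegral x)

theorem placeBelow269_asIdeal (w : HeightOneSpectrum (𝓞 K')) :
    (placeBelow269 K K' w).asIdeal = w.asIdeal.under (𝓞 K) := rfl

/-- `w` lies over `w ∩ 𝓞 K`. -/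
theorem placeOver_placeBelow269 (w : HeightOneSpectrum (𝓞 K')) :
    PlaceOver K K' (placeBelow269 K K' w) w := by
  intro x y hxy
  have hy : y = algebraMap (𝓞 K) (𝓞 K') x := by
    apply RingOfIntegers.ext
    rw [hxy]
    rfl
  rw [placeBelow269_asIdeal, Ideal.under_def, Ideal.mem_comap, hy]

/-- `N w` is a power of `N (w ∩ 𝓞 K)`. -/
theorem absNorm_eq_pow269 (w : HeightOneSpectrum (𝓞 K')) :
    ∃ f : ℕ, Ideal.absNorm w.asIdeal = Ideal.absNorm (placeBelow269 K K' w).asIdeal ^ f := by
  haveI hmax : (w.asIdeal.under (𝓞 K)).IsMaximal :=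
    (placeBelow269 K K' w).isMaximal
  letI : Field (𝓞 K ⧸ w.asIdeal.under (𝓞 K)) := Ideal.Quotient.field _
  haveI : Finite (𝓞 K' ⧸ w.asIdeal) := Ideal.finiteQuotientOfFreeOfNeBot _ w.ne_bot
  haveI : Module.Finite (𝓞 K ⧸ w.asIdeal.under (𝓞 K)) (𝓞 K' ⧸ w.asIdeal) :=
    Module.Finite.of_finite
  refine ⟨Module.finrank (𝓞 K ⧸ w.asIdeal.under (𝓞 K)) (𝓞 K' ⧸ w.asIdeal), ?_⟩
  rw [placeBelow269_asIdeal, Ideal.absNorm_apply, Ideal.absNorm_apply, Submodule.cardQuot_apply,
    Submodule.cardQuot_apply]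
  exact Module.natCard_eq_pow_finrank (K := 𝓞 K ⧸ w.asIdeal.under (𝓞 K))
    (V := 𝓞 K' ⧸ w.asIdeal)

/-- Every finite place of `K'` has a place below and a residue degree. -/
theorem hasResDeg269 (w : HeightOneSpectrum (𝓞 K')) :
    ∃ (v : HeightOneSpectrum (𝓞 K)) (f : ℕ), HasResDeg K K' v w f := by
  obtain ⟨f, hf⟩ := absNorm_eq_pow269 K K' w
  exact ⟨placeBelow269 K K' w, f, placeOver_placeBelow269 K K' w, hf⟩

/-- **LEAF T7.L2.3.6** `SD534.ResDegC K K'`, verbatim. -/
theorem resDegC269 : SD534.ResDegC K K' :=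
  fun _ w => hasResDeg269 K K' w

/-- Type check against the frozen Prop of the spec. -/
example (K K' : Type) [Field K] [NumberField K] [Field K'] [NumberField K'] [Algebra K K'] :
    Fermat.Agent.LT.T7.SD534.ResDegC K K' := resDegC269 K K'

end Fermat.Agent.LT.T7.H269
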