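import Mathlib
import Fermat.Agent.LT.T7.H193.KillSpec

/-!
# Row LT, tower T7, leaf T7.L2.1.N09 `H193.NatHInvC` (helper269)

OFF-MAIN.  ADDITIVE (new names only, all tagged `269`).  No hole, nothing assumed.
Spec: `LT/T7/H193/KillSpec.lean` (helper193@4a1c7c2bb, sha256 2cb0a205), byte-identical.

    natHInvC269 : H193.NatHInvC K

`φ♮ (g) = vol(D)⁻¹ ∫_D φ(g a(t)⁻¹) dt` is right invariant under `H = I_o · U(𝔑₀)` if `φ` is:
`a t` is central (`IsTorusData.central`), so `φ(y h a(t)⁻¹) = φ(y a(t)⁻¹ h) = φ(y a(t)⁻¹)`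
pointwise in `t`.
-/

set_option autoImplicit false
set_option linter.unusedSectionVars false
set_option linter.unusedVariables false

open IsDedekindDomain NumberField MeasureTheory

noncomputable section

namespace Fermat.Agent.LT.T7.H269

open Fermat.Agent.LT.H556 Fermat.Agent.LT.H556.A0 Fermat.Agent.LT Fermat.Agent.LT.T7.H193

variable {K : Type} [Field K] [NumberField K]

/-- The inverse of a central element commutes with everything. -/
theorem mul_inv_central269 {a : G K} (ha : ∀ g : G K, a * g = g * a) (y h : G K) :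
    y * h * a⁻¹ = y * a⁻¹ * h := by
  have h1 : a⁻¹ * h = h * a⁻¹ := by
    have := ha h
    calc a⁻¹ * h = a⁻¹ * (h * a) * a⁻¹ := by rw [mul_assoc, mul_assoc, mul_inv_cancel, mul_one]
      _ = a⁻¹ * (a * h) * a⁻¹ := by rw [this]
      _ = h * a⁻¹ := by rw [← mul_assoc, inv_mul_cancel, one_mul]
  rw [mul_assoc, ← h1, ← mul_assoc]

/-- `φ♮ (y h) = φ♮ (y)` if `φ (· h) = φ` and the `a t` are central. -/
theorem nat269_right_inv {a : (InfinitePlace K → ℝ) → G K} (D : Set (InfinitePlace K → ℝ))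
    (hc : ∀ (t : InfinitePlace K → ℝ) (g : G K), a t * g = g * a t) (φ : G K → ℂ) (h : G K)
    (hφ : ∀ y : G K, φ (y * h) = φ y) (y : G K) :
    nat193 a D φ (y * h) = nat193 a D φ y := by
  have hfun : (fun t => φ (y * h * (a t)⁻¹)) = fun t => φ (y * (a t)⁻¹) := by
    funext t
    rw [mul_inv_central269 (hc t) y h, hφ]
  unfold nat193
  rw [hfun]

/-- **LEAF T7.L2.1.N09** `H193.NatHInvC K`, verbatim. -/
theorem natHInvC269 (K : Type) [Field K] [NumberField K] : NatHInvC K := by
  intro 𝔑 r a D hD 𝔑₀ l o φ hφ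
  exact ⟨fun u hu y => nat269_right_inv D hD.central φ u (hφ.1 u hu) y,
    fun i hi y => nat269_right_inv D hD.central φ i (hφ.2 i hi) y⟩

/-- Type check against the frozen Prop of the spec. -/
example (K : Type) [Field K] [NumberField K] : Fermat.Agent.LT.T7.H193.NatHInvC K :=
  natHInvC269 K

end Fermat.Agent.LT.T7.H269
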